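/-
S29 / Program A (helper51), leaf HCOMM, part 1: GENERIC push-pull calculus for divisors of
function fields over an algebraically closed field of characteristic zero, in the Prelude's
`Along` language.

* functoriality: `restrictAlong_comp`, `ramificationIndexAlong_comp`, `pullbackAlong_comp`,
  `pushforwardAlong_comp`;
* norm transfer along a square `c ∘ a = d ∘ b` in which a basis of `F₁ / a F₀` is mapped by `c`
  to a basis of `F₃ / d F₂` (`normAlong_comm_of_span`);
* **base change** `b^* a_* = d_* c^*` on divisors (`pullbackAlong_pushforwardAlong`) for such a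
  square.  Proof without completions: the fibre norm formula (landed `S37/H13`) for `a` and for
  `d`, applied to a function of `F₁` with a simple zero at one place of a fibre of `a` and no zero
  at the others (weak approximation, landed `S18/H17`).
-/
import Fermat.Agent.S37.H13.HeckeInputs
import Fermat.Agent.S18.H82.TraceTransfer

set_option autoImplicit false
set_option linter.unusedSectionVars false
set_option linter.style.haveILetI false

open AlgebraicCurve IntermediateField

noncomputable section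

namespace Fermat.Agent.S29.H51

section Basic

variable {K F F' : Type*} [Field K] [Field F] [Field F'] [Algebra K F] [Algebra K F']

/-- The norm along an algebra homomorphism `φ : F → F'`. -/
def normAlong (φ : F →ₐ[K] F') (g : F') : F :=
  letI := algebraAlong φ
  Algebra.norm F g

theorem mem_restrictAlong (φ : F →ₐ[K] F') (hφ : φ.toRingHom.IsIntegral) (w : Place K F')
    (f : F) : f ∈ (w.restrictAlong φ hφ).toValuationSubring ↔ φ f ∈ w.toValuationSubring :=
  Iff.rfl

/-- Inertia degrees are `1` over an algebraically closed constant field (Along form). -/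
theorem inertiaDegAlong_eq_one [IsAlgClosed K] (t : F) [FiniteDimensional K⟮t⟯ F]
    (φ : F →ₐ[K] F') (hφ : φ.toRingHom.IsIntegral) (hfin : FiniteAlong K φ) (w : Place K F') :
    w.inertiaDegAlong φ hφ = 1 := by
  letI := algebraAlong φ
  haveI := isScalarTower_along φ
  haveI := isIntegral_along φ hφ
  haveI : Module.Finite F F' := hfin
  exact Fermat.Agent.S37.H13.inertiaDeg_eq_one t w

theorem pushforwardAlong_single_of_inertia (φ : F →ₐ[K] F') (hφ : φ.toRingHom.IsIntegral)
    (h1 : ∀ w : Place K F', w.inertiaDegAlong φ hφ = 1) (w : Place K F') (n : ℤ) :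
    Divisor.pushforwardAlong φ hφ (Finsupp.single w n)
      = Finsupp.single (w.restrictAlong φ hφ) n := by
  rw [Divisor.pushforwardAlong_single, h1, Nat.cast_one, mul_one]

/-- Fibre form of the norm formula, in `fiberAlong` / `normAlong` notation. -/
theorem sum_fiberAlong_ord [IsAlgClosed K] [CharZero K] (t : F) (ht : Transcendental K t)
    [FiniteDimensional K⟮t⟯ F] [HasPrincipalDivisors K F'] (φ : F →ₐ[K] F')
    (hφ : φ.toRingHom.IsIntegral) (hfin : FiniteAlong K φ) {g : F'} (hg : g ≠ 0)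
    (v : Place K F) :
    ∑ w ∈ Place.fiberAlong φ hφ v, w.ord g = v.ord (normAlong φ g) :=
  Fermat.Agent.S37.H13.sum_fiber_ord_eq_ord_norm_along t ht φ hfin hg v

end Basic

section Comp

variable {K F F' F'' : Type*} [Field K] [Field F] [Field F'] [Field F''] [Algebra K F]
  [Algebra K F'] [Algebra K F'']

theorem isIntegral_comp (φ : F →ₐ[K] F') (ψ : F' →ₐ[K] F'') (hφ : φ.toRingHom.IsIntegral)
    (hψ : ψ.toRingHom.IsIntegral) : (ψ.comp φ).toRingHom.IsIntegral :=
  RingHom.IsIntegral.trans _ _ hφ hψ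

theorem restrictAlong_comp (φ : F →ₐ[K] F') (ψ : F' →ₐ[K] F'') (hφ : φ.toRingHom.IsIntegral)
    (hψ : ψ.toRingHom.IsIntegral) (hψφ : (ψ.comp φ).toRingHom.IsIntegral) (w : Place K F'') :
    w.restrictAlong (ψ.comp φ) hψφ = (w.restrictAlong ψ hψ).restrictAlong φ hφ := by
  apply Place.ext
  ext f
  rfl

theorem ramificationIndexAlong_comp (φ : F →ₐ[K] F') (ψ : F' →ₐ[K] F'')
    (hφ : φ.toRingHom.IsIntegral) (hψ : ψ.toRingHom.IsIntegral)
    (hψφ : (ψ.comp φ).toRingHom.IsIntegral) (w : Place K F'') :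
    w.ramificationIndexAlong (ψ.comp φ)
      = w.ramificationIndexAlong ψ * (w.restrictAlong ψ hψ).ramificationIndexAlong φ := by
  obtain ⟨v, hv⟩ : ∃ v : Place K F, v = (w.restrictAlong ψ hψ).restrictAlong φ hφ := ⟨_, rfl⟩
  obtain ⟨π, hπ⟩ := IsDiscreteValuationRing.exists_irreducible v.toValuationSubring
  have h1 : v.ord (π : F) = 1 := v.ord_coe_irreducible hπ
  have hA := Place.ord_restrictAlong (ψ.comp φ) hψφ w (π : F)
  have hB := Place.ord_restrictAlong ψ hψ w (φ (π : F))
  have hC := Place.ord_restrictAlong φ hφ (w.restrictAlong ψ hψ) (π : F)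
  rw [restrictAlong_comp φ ψ hφ hψ hψφ, ← hv, h1, mul_one] at hA
  rw [← hv, h1, mul_one] at hC
  rw [hC] at hB
  have hcomp : (ψ.comp φ) (π : F) = ψ (φ (π : F)) := rfl
  rw [hcomp, hB] at hA
  exact_mod_cast hA.symm

theorem pullbackAlong_comp [HasPrincipalDivisors K F'] [HasPrincipalDivisors K F'']
    (φ : F →ₐ[K] F') (ψ : F' →ₐ[K] F'') (hφ : φ.toRingHom.IsIntegral)
    (hψ : ψ.toRingHom.IsIntegral) (hψφ : (ψ.comp φ).toRingHom.IsIntegral) (D : Divisor K F) :
    Divisor.pullbackAlong (ψ.comp φ) hψφ D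
      = Divisor.pullbackAlong ψ hψ (Divisor.pullbackAlong φ hφ D) := by
  ext w
  rw [Divisor.pullbackAlong_apply, Divisor.pullbackAlong_apply, Divisor.pullbackAlong_apply,
    restrictAlong_comp φ ψ hφ hψ hψφ, ramificationIndexAlong_comp φ ψ hφ hψ hψφ]
  push_cast
  ring

theorem pushforwardAlong_comp (φ : F →ₐ[K] F') (ψ : F' →ₐ[K] F'') (hφ : φ.toRingHom.IsIntegral)
    (hψ : ψ.toRingHom.IsIntegral) (hψφ : (ψ.comp φ).toRingHom.IsIntegral)
    (h1 : ∀ w : Place K F'', w.inertiaDegAlong (ψ.comp φ) hψφ = 1)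
    (h2 : ∀ w : Place K F'', w.inertiaDegAlong ψ hψ = 1)
    (h3 : ∀ v : Place K F', v.inertiaDegAlong φ hφ = 1) (D : Divisor K F'') :
    Divisor.pushforwardAlong (ψ.comp φ) hψφ D
      = Divisor.pushforwardAlong φ hφ (Divisor.pushforwardAlong ψ hψ D) := by
  induction D using Finsupp.induction with
  | zero => simp
  | single_add w n D _ _ ih =>
    rw [map_add, map_add, map_add, ih, pushforwardAlong_single_of_inertia _ _ h1,
      pushforwardAlong_single_of_inertia _ _ h2, pushforwardAlong_single_of_inertia _ _ h3,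
      restrictAlong_comp φ ψ hφ hψ hψφ]

end Comp

section NormTransfer

variable {K F₀ F₁ F₂ F₃ : Type*} [Field K] [Field F₀] [Field F₁] [Field F₂] [Field F₃]
  [Algebra K F₀] [Algebra K F₁] [Algebra K F₂] [Algebra K F₃]

/-- **Norm transfer along a cartesian square.**  If `c ∘ a = d ∘ b`, the degrees of `a` and `d`
agree and `F₃` is spanned over `d F₂` by `c F₁`, then `N_d (c h) = b (N_a h)`. -/
theorem normAlong_comm_of_span (a : F₀ →ₐ[K] F₁) (b : F₀ →ₐ[K] F₂) (c : F₁ →ₐ[K] F₃)
    (d : F₂ →ₐ[K] F₃) (hcomm : c.comp a = d.comp b) (hfa : FiniteAlong K a)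
    (hrank : finrankAlong K d = finrankAlong K a)
    (hspan : ∀ z : F₃, ∃ (n : ℕ) (y : Fin n → F₂) (x : Fin n → F₁), z = ∑ i, d (y i) * c (x i))
    (h : F₁) : normAlong d (c h) = b (normAlong a h) := by
  classical
  letI := algebraAlong a
  letI := algebraAlong d
  haveI : Module.Finite F₀ F₁ := hfa
  let B := Module.finBasis F₀ F₁
  have hsemi : ∀ r : F₀, (c : F₁ →+* F₃) (algebraMap F₀ F₁ r)
      = algebraMap F₂ F₃ ((b : F₀ →+* F₂) r) := by
    intro r
    exact congrArg (fun f : F₀ →ₐ[K] F₃ => f r) hcomm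
  have hcard : Fintype.card (Fin (Module.finrank F₀ F₁)) = Module.finrank F₂ F₃ := by
    rw [Fintype.card_fin]
    exact hrank.symm
  have hcx : ∀ x : F₁, c x ∈ Submodule.span F₂ (Set.range fun i => c (B i)) := by
    intro x
    have hx : c x = ∑ i, (b (B.repr x i)) • c (B i) := by
      conv_lhs => rw [← B.sum_repr x]
      rw [map_sum]
      refine Finset.sum_congr rfl fun i _ => ?_
      rw [Algebra.smul_def, map_mul, Algebra.smul_def]
      congr 1
      exact hsemi _
    rw [hx]
    exact Submodule.sum_mem _ fun i _ =>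
      Submodule.smul_mem _ _ (Submodule.subset_span ⟨i, rfl⟩)
  have hspan' : ⊤ ≤ Submodule.span F₂ (Set.range fun i => c (B i)) := by
    intro z _
    obtain ⟨n, y, x, rfl⟩ := hspan z
    refine Submodule.sum_mem _ fun i _ => ?_
    have : d (y i) * c (x i) = y i • c (x i) := by rw [Algebra.smul_def]; rfl
    rw [this]
    exact Submodule.smul_mem _ _ (hcx _)
  let B' : Module.Basis (Fin (Module.finrank F₀ F₁)) F₂ F₃ :=
    basisOfTopLeSpanOfCardEqFinrank (fun i => c (B i)) hspan' hcard
  have hB' : ∀ i, (c : F₁ →+* F₃) (B i) = B' i := fun i => by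
    simp only [B', coe_basisOfTopLeSpanOfCardEqFinrank]
    rfl
  show Algebra.norm F₂ (c h) = b (Algebra.norm F₀ h)
  rw [Algebra.norm_eq_matrix_det B', Algebra.norm_eq_matrix_det B]
  have hM := Fermat.Agent.S18.H82.leftMulMatrix_map_of_basis (b : F₀ →+* F₂) (c : F₁ →+* F₃)
    hsemi B B' hB' h
  have hch : c h = (c : F₁ →+* F₃) h := rfl
  rw [hch, hM, ← RingHom.mapMatrix_apply, ← RingHom.map_det]
  rfl

end NormTransfer

section BaseChange

variable {K F₀ F₁ F₂ F₃ : Type*} [Field K] [Field F₀] [Field F₁] [Field F₂] [Field F₃]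
  [Algebra K F₀] [Algebra K F₁] [Algebra K F₂] [Algebra K F₃] [IsAlgClosed K] [CharZero K]
  [HasPrincipalDivisors K F₁] [HasPrincipalDivisors K F₂] [HasPrincipalDivisors K F₃]

/-- Local form of base change: for places `P₁` of `F₁` and `P₂` of `F₂`,
`∑_{W | P₁, W | P₂} e_c(W) = e_b(P₂)` if `P₁, P₂` lie over the same place of `F₀`, and the sum
is empty otherwise. -/
theorem sum_ramificationIndexAlong_filter
    (t₀ : F₀) (ht₀ : Transcendental K t₀) [FiniteDimensional K⟮t₀⟯ F₀]
    (t₁ : F₁) (ht₁ : Transcendental K t₁) [FiniteDimensional K⟮t₁⟯ F₁]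
    (t₂ : F₂) (ht₂ : Transcendental K t₂) [FiniteDimensional K⟮t₂⟯ F₂]
    (a : F₀ →ₐ[K] F₁) (b : F₀ →ₐ[K] F₂) (c : F₁ →ₐ[K] F₃) (d : F₂ →ₐ[K] F₃)
    (ha : a.toRingHom.IsIntegral) (hb : b.toRingHom.IsIntegral)
    (hc : c.toRingHom.IsIntegral) (hd : d.toRingHom.IsIntegral)
    (hfa : FiniteAlong K a) (hfd : FiniteAlong K d)
    (hcomm : c.comp a = d.comp b)
    (hnorm : ∀ h : F₁, normAlong d (c h) = b (normAlong a h))
    (P₁ : Place K F₁) (P₂ : Place K F₂) [DecidableEq (Place K F₁)] [DecidableEq (Place K F₂)]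
    [DecidableEq (Place K F₀)] :
    ∑ W ∈ (Place.fiberAlong c hc P₁).filter (fun W => W.restrictAlong d hd = P₂),
        (W.ramificationIndexAlong c : ℤ)
      = if P₁.restrictAlong a ha = P₂.restrictAlong b hb then
          (P₂.ramificationIndexAlong b : ℤ) else 0 := by
  have hca : (c.comp a).toRingHom.IsIntegral := isIntegral_comp a c ha hc
  have hdb : (d.comp b).toRingHom.IsIntegral := isIntegral_comp b d hb hd
  have hsq : ∀ W : Place K F₃, (W.restrictAlong c hc).restrictAlong a ha
      = (W.restrictAlong d hd).restrictAlong b hb := by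
    intro W
    rw [← restrictAlong_comp a c ha hc hca, ← restrictAlong_comp b d hb hd hdb]
    exact Place.restrictAlong_congr hcomm _ _ W
  split_ifs with h0
  · obtain ⟨h, hh0, hhS⟩ := Fermat.Agent.S18.H17.exists_ord_eq_finset t₁ ht₁
      (Place.fiberAlong a ha (P₂.restrictAlong b hb)) (fun P => if P = P₁ then 1 else 0)
    have hP₁mem : P₁ ∈ Place.fiberAlong a ha (P₂.restrictAlong b hb) :=
      Place.mem_fiberAlong.mpr h0
    have hch : c h ≠ 0 := (map_ne_zero c).mpr hh0
    have e1 := sum_fiberAlong_ord t₂ ht₂ d hd hfd hch P₂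
    rw [hnorm, Place.ord_restrictAlong b hb P₂] at e1
    have e2 := sum_fiberAlong_ord t₀ ht₀ a ha hfa hh0 (P₂.restrictAlong b hb)
    have e3 : ∑ P ∈ Place.fiberAlong a ha (P₂.restrictAlong b hb), P.ord h = 1 := by
      rw [Finset.sum_congr rfl hhS, Finset.sum_ite_eq' _ P₁, if_pos hP₁mem]
    rw [← e2, e3, mul_one] at e1
    rw [← e1]
    have key : ∀ W ∈ Place.fiberAlong d hd P₂, W.ord (c h)
        = if W.restrictAlong c hc = P₁ then (W.ramificationIndexAlong c : ℤ) else 0 := by
      intro W hW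
      rw [Place.ord_restrictAlong c hc W h]
      have hWa : W.restrictAlong c hc ∈ Place.fiberAlong a ha (P₂.restrictAlong b hb) := by
        rw [Place.mem_fiberAlong, hsq, Place.mem_fiberAlong.mp hW]
      rw [hhS _ hWa]
      split_ifs <;> simp
    rw [Finset.sum_congr rfl key, ← Finset.sum_filter]
    refine Finset.sum_congr ?_ (fun _ _ => rfl)
    ext W
    simp only [Finset.mem_filter, Place.mem_fiberAlong]
    exact and_comm
  · refine Finset.sum_eq_zero fun W hW => ?_
    exfalso
    apply h0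
    rw [Finset.mem_filter, Place.mem_fiberAlong] at hW
    rw [← hW.1, ← hW.2]
    exact hsq W

/-- **Base change** for divisors along a cartesian square of function fields:
`b^* ∘ a_* = d_* ∘ c^*`. -/
theorem pullbackAlong_pushforwardAlong
    (t₀ : F₀) (ht₀ : Transcendental K t₀) [FiniteDimensional K⟮t₀⟯ F₀]
    (t₁ : F₁) (ht₁ : Transcendental K t₁) [FiniteDimensional K⟮t₁⟯ F₁]
    (t₂ : F₂) (ht₂ : Transcendental K t₂) [FiniteDimensional K⟮t₂⟯ F₂]
    (a : F₀ →ₐ[K] F₁) (b : F₀ →ₐ[K] F₂) (c : F₁ →ₐ[K] F₃) (d : F₂ →ₐ[K] F₃)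
    (ha : a.toRingHom.IsIntegral) (hb : b.toRingHom.IsIntegral)
    (hc : c.toRingHom.IsIntegral) (hd : d.toRingHom.IsIntegral)
    (hfa : FiniteAlong K a) (hfd : FiniteAlong K d)
    (hcomm : c.comp a = d.comp b)
    (hnorm : ∀ h : F₁, normAlong d (c h) = b (normAlong a h))
    (D : Divisor K F₁) :
    Divisor.pullbackAlong b hb (Divisor.pushforwardAlong a ha D)
      = Divisor.pushforwardAlong d hd (Divisor.pullbackAlong c hc D) := by
  classical
  have hia : ∀ w : Place K F₁, w.inertiaDegAlong a ha = 1 := inertiaDegAlong_eq_one t₀ a ha hfa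
  have hid : ∀ w : Place K F₃, w.inertiaDegAlong d hd = 1 := inertiaDegAlong_eq_one t₂ d hd hfd
  induction D using Finsupp.induction with
  | zero => simp
  | single_add P₁ n D _ _ ih =>
    rw [map_add, map_add, map_add, map_add, ih]
    congr 1
    ext P₂
    rw [pushforwardAlong_single_of_inertia a ha hia, Divisor.pullbackAlong_apply,
      Divisor.pullbackAlong_single, map_sum, Finsupp.finsetSum_apply]
    simp_rw [pushforwardAlong_single_of_inertia d hd hid, Finsupp.single_apply]
    rw [← Finset.sum_filter, ← Finset.mul_sum,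
      sum_ramificationIndexAlong_filter t₀ ht₀ t₁ ht₁ t₂ ht₂ a b c d ha hb hc hd hfa hfd hcomm
        hnorm P₁ P₂]
    split_ifs <;> ring

end BaseChange

end Fermat.Agent.S29.H51
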