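/-
S29 / Program A (helper51), leaf HCOMM, part 2: the MODULAR square.

For distinct primes `p ≠ q` and a level `N`, with `P = N * p * q`:

      FF N  --incl-->  FF (N p)
        |                 |
     q ↦ q^q           q ↦ q^q
        v                 v
    FF (N q) --incl-->  FF P

commutes, the two horizontal degrees agree (`ψ` arithmetic) and `FF P` is spanned over `FF (N q)`
by the image of `FF (N p)` (GENERATION hypothesis `Gen P`, i.e. `FF P = ℚ̄(j, j(q^P))`: leaf (P4)
of the team).  Hence the norm transfer and the base change of `PushPull.lean` apply, and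

    `T_q (T_p D) = (incl : FF N → FF P)_* (q ↦ q^{pq})^* D`   on divisors.
-/
import Fermat.Agent.S29.H51.PushPull
import Fermat.Agent.S29.H73.NormBC

set_option autoImplicit false
set_option linter.unusedSectionVars false
set_option linter.style.haveILetI false

open AlgebraicCurve IntermediateField ModularCurve Fermat.Agent.S24

noncomputable section

namespace Fermat.Agent.S29.H51

/-- The generation statement at level `P`: an intermediate field of `FF P / ℚ̄` containing `j` and
`j(q^P)` is everything. -/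
def Gen (P : ℕ) [NeZero P] : Prop :=
  ∀ E : IntermediateField Kbar (FF P), jgen P ∈ E → jF P (topDiv P) ∈ E → E = ⊤

section Abstract

variable {K F₁ F₂ F₃ : Type*} [Field K] [Field F₁] [Field F₂] [Field F₃]
  [Algebra K F₁] [Algebra K F₂] [Algebra K F₃]

theorem mem_toIntermediateField_iff {K L : Type*} [Field K] [Field L] [Algebra K L]
    (S : Subalgebra K L) (h : ∀ x ∈ S, x⁻¹ ∈ S) (z : L) :
    z ∈ S.toIntermediateField h ↔ z ∈ S :=
  Iff.rfl

/-- If every intermediate field of `F₃ / K` containing `d F₂` and `c F₁` is everything and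
`F₃ / d F₂` is finite, then `F₃` is spanned over `d F₂` by `c F₁`. -/
theorem span_range_eq_top (c : F₁ →ₐ[K] F₃) (d : F₂ →ₐ[K] F₃) (hfd : FiniteAlong K d)
    (hE : ∀ E : IntermediateField K F₃, (∀ y, d y ∈ E) → (∀ x, c x ∈ E) → E = ⊤) :
    letI := algebraAlong d
    Submodule.span F₂ (Set.range c) = ⊤ := by
  letI := algebraAlong d
  haveI := isScalarTower_along d
  haveI : Module.Finite F₂ F₃ := hfd
  let S : Subalgebra F₂ F₃ := Algebra.adjoin F₂ (Set.range c)
  have hcl : (Submonoid.closure (Set.range c) : Set F₃) = Set.range c := by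
    have h0 : Set.range c = ((MonoidHom.mrange (c : F₁ →* F₃) : Submonoid F₃) : Set F₃) := rfl
    rw [h0, Submonoid.closure_eq]
  have hS : Subalgebra.toSubmodule S = Submodule.span F₂ (Set.range c) := by
    rw [Algebra.adjoin_eq_span, hcl]
  have hinv : ∀ x ∈ S.restrictScalars K, x⁻¹ ∈ S.restrictScalars K := by
    intro x hx
    have hx' : x ∈ S := (Subalgebra.mem_restrictScalars K).mp hx
    exact (Subalgebra.mem_restrictScalars K).mpr
      (S.inv_mem_of_algebraic (x := ⟨x, hx'⟩) (Algebra.IsAlgebraic.isAlgebraic _))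
  have hmem : ∀ z : F₃, z ∈ (S.restrictScalars K).toIntermediateField hinv ↔ z ∈ S := fun z =>
    (mem_toIntermediateField_iff _ hinv z).trans (Subalgebra.mem_restrictScalars K)
  have h1 : ∀ y, d y ∈ (S.restrictScalars K).toIntermediateField hinv := fun y =>
    (hmem _).mpr (S.algebraMap_mem y)
  have h2 : ∀ x, c x ∈ (S.restrictScalars K).toIntermediateField hinv := fun x =>
    (hmem _).mpr (Algebra.subset_adjoin (Set.mem_range_self x))
  have hE' := hE _ h1 h2
  rw [← hS, eq_top_iff]
  intro z _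
  rw [Subalgebra.mem_toSubmodule, ← hmem, hE']
  exact IntermediateField.mem_top

end Abstract

section Maps

variable {M M' : ℕ} [NeZero M] [NeZero M']

/-- The inclusion `FF M → FF M'` for `M ∣ M'`. -/
def incl (h : M ∣ M') : FF M →ₐ[Kbar] FF M' :=
  IntermediateField.inclusion (Fermat.Agent.S18.H87.modularFunctionFieldBar_mono h)

@[simp]
theorem coe_incl (h : M ∣ M') (x : FF M) :
    ((incl h x : FF M') : LaurentSeries Kbar) = (x : LaurentSeries Kbar) :=
  IntermediateField.coe_inclusion _ x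

theorem finiteAlong_incl (h : M ∣ M') : FiniteAlong Kbar (incl h) :=
  (Fermat.Agent.S18.H87.finrank_FN M M'
    (Fermat.Agent.S18.H87.modularFunctionFieldBar_mono h)).1

theorem finrankAlong_incl (h : M ∣ M') :
    finrankAlong Kbar (incl h) * dedekindPsi M = dedekindPsi M' :=
  (Fermat.Agent.S18.H87.finrank_FN M M'
    (Fermat.Agent.S18.H87.modularFunctionFieldBar_mono h)).2

theorem isIntegral_incl (h : M ∣ M') : (incl h).toRingHom.IsIntegral := by
  let _ : Algebra (FF M) (FF M') := algebraAlong (incl h)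
  have : Module.Finite (FF M) (FF M') := finiteAlong_incl h
  exact fun x => Algebra.IsIntegral.isIntegral (R := FF M) x

/-- `q ↦ q^m` as a map `FF M → FF M'` for `M * m ∣ M'`. -/
def frob (m : ℕ) [NeZero m] (h : M * m ∣ M') : FF M →ₐ[Kbar] FF M' :=
  (incl h).comp (heckeBetaBar Kbar M m)

@[simp]
theorem coe_frob (m : ℕ) [NeZero m] (h : M * m ∣ M') (x : FF M) :
    ((frob m h x : FF M') : LaurentSeries Kbar) = qExpand Kbar m (x : LaurentSeries Kbar) := by
  rw [frob, AlgHom.comp_apply, coe_incl, coe_heckeBetaBar]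

theorem isIntegral_frob (m : ℕ) [NeZero m] (h : M * m ∣ M') :
    (frob m h).toRingHom.IsIntegral :=
  isIntegral_comp _ _ (Fermat.Agent.S37.H87.heckeBetaBarIntegral M m) (isIntegral_incl h)

end Maps

theorem heckeAlphaBar_eq_incl (N ℓ : ℕ) [NeZero N] [NeZero ℓ] :
    heckeAlphaBar Kbar N ℓ = incl (dvd_mul_right N ℓ) :=
  rfl

theorem heckeBetaBar_eq_frob (N ℓ : ℕ) [NeZero N] [NeZero ℓ] :
    heckeBetaBar Kbar N ℓ = frob ℓ (dvd_refl (N * ℓ)) :=
  AlgHom.ext fun x => Subtype.ext (by rw [coe_frob, coe_heckeBetaBar])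

/-- `ψ(N p q) ψ(N) = ψ(N p) ψ(N q)` for distinct primes `p ≠ q`. -/
theorem dedekindPsi_square {N p q : ℕ} (hN : N ≠ 0) (hp : p.Prime) (hq : q.Prime) (hpq : p ≠ q) :
    dedekindPsi (N * p * q) * dedekindPsi N = dedekindPsi (N * p) * dedekindPsi (N * q) := by
  have hNq : N * q ≠ 0 := Nat.mul_ne_zero hN hq.ne_zero
  have hpq' : ¬ p ∣ q := fun h => hpq ((Nat.prime_dvd_prime_iff_eq hp hq).mp h)
  rw [Nat.mul_right_comm N p q]
  by_cases h : p ∣ N
  · rw [S20.H77.dedekindPsi_mul_prime_of_dvd hp hNq (Dvd.dvd.mul_right h q),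
      S20.H77.dedekindPsi_mul_prime_of_dvd hp hN h]
    ring
  · have h' : ¬ p ∣ N * q := fun hd => (hp.dvd_mul.mp hd).elim h hpq'
    rw [S20.H77.dedekindPsi_mul_prime_of_not_dvd hp hNq h',
      S20.H77.dedekindPsi_mul_prime_of_not_dvd hp hN h]
    ring

section Square

variable {N p q P : ℕ} [NeZero N] [NeZero p] [NeZero q] [NeZero P]

/-- The modular square commutes. -/
theorem square_comm (h₁ : N * p * q ∣ P) (h₂ : N * q ∣ P) :
    (frob q h₁).comp (heckeAlphaBar Kbar N p) = (incl h₂).comp (heckeBetaBar Kbar N q) :=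
  AlgHom.ext fun x => Subtype.ext (by
    rw [AlgHom.comp_apply, AlgHom.comp_apply, coe_frob, coe_incl, coe_heckeAlphaBar,
      coe_heckeBetaBar])

/-- The two horizontal degrees of the modular square agree. -/
theorem finrankAlong_square (hp : p.Prime) (hq : q.Prime) (hpq : p ≠ q) (hP : P = N * p * q)
    (h₂ : N * q ∣ P) :
    finrankAlong Kbar (incl h₂) = finrankAlong Kbar (heckeAlphaBar Kbar N p) := by
  have e1 := finrankAlong_incl h₂
  have e2 := Fermat.Agent.S37.H87.finrankAlong_alpha N p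
  have e3 := dedekindPsi_square (NeZero.ne N) hp hq hpq
  rw [← hP] at e3
  have hN := Fermat.Agent.S18.H87.dedekindPsi_pos N
  have hNq := Fermat.Agent.S18.H87.dedekindPsi_pos (N * q)
  have key : finrankAlong Kbar (incl h₂) * (dedekindPsi (N * q) * dedekindPsi N)
      = finrankAlong Kbar (heckeAlphaBar Kbar N p) * (dedekindPsi (N * q) * dedekindPsi N) := by
    calc finrankAlong Kbar (incl h₂) * (dedekindPsi (N * q) * dedekindPsi N)
        = (finrankAlong Kbar (incl h₂) * dedekindPsi (N * q)) * dedekindPsi N := by ring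
      _ = dedekindPsi (N * p) * dedekindPsi (N * q) := by rw [e1, e3]
      _ = finrankAlong Kbar (heckeAlphaBar Kbar N p) * (dedekindPsi (N * q) * dedekindPsi N) := by
          rw [← e2]; ring
  exact Nat.eq_of_mul_eq_mul_right (Nat.mul_pos hNq hN) key

theorem incl_jgen (h₂ : N * q ∣ P) : incl h₂ (jgen (N * q)) = jgen P :=
  Subtype.ext rfl

theorem frob_jtop (hP : P = N * p * q) (h₁ : N * p * q ∣ P) :
    frob q h₁ (jF (N * p) (topDiv (N * p))) = jF P (topDiv P) := by
  apply Subtype.ext
  rw [coe_frob]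
  show qExpand Kbar q (coeffEmb Kbar (qExpand ℚ (N * p) jq)) = coeffEmb Kbar (qExpand ℚ P jq)
  have h : ∀ (d : ℕ) [NeZero d], coeffEmb Kbar (qExpand ℚ d jq) = qExpand Kbar d (jqModC Kbar) :=
    fun d _ => coeffMap_jqNModC (algebraMap ℚ Kbar) d
  rw [h (N * p), h P, qExpand_qExpand]
  exact qExpand_congr (by rw [hP, mul_comm]) _

/-- `FF P` is spanned over `FF (N q)` by the image of `FF (N p)` under `q ↦ q^q`. -/
theorem span_frob_eq_top (hgen : Gen P) (hP : P = N * p * q) (h₁ : N * p * q ∣ P)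
    (h₂ : N * q ∣ P) :
    letI := algebraAlong (incl h₂)
    Submodule.span (FF (N * q)) (Set.range (frob q h₁ : FF (N * p) → FF P)) = ⊤ := by
  refine span_range_eq_top (frob q h₁) (incl h₂) (finiteAlong_incl h₂) fun E hd hc => ?_
  refine hgen E ?_ ?_
  · rw [← incl_jgen h₂]
    exact hd _
  · rw [← frob_jtop hP h₁]
    exact hc _

/-- Norm transfer along the modular square. -/
theorem normAlong_square (hgen : Gen P) (hp : p.Prime) (hq : q.Prime) (hpq : p ≠ q)
    (hP : P = N * p * q) (h₁ : N * p * q ∣ P) (h₂ : N * q ∣ P) (h : FF (N * p)) :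
    normAlong (incl h₂) (frob q h₁ h)
      = heckeBetaBar Kbar N q (normAlong (heckeAlphaBar Kbar N p) h) := by
  letI := algebraAlong (heckeAlphaBar Kbar N p)
  letI := algebraAlong (incl h₂)
  haveI : Module.Finite (FF N) (FF (N * p)) := Fermat.Agent.S37.H87.finiteAlong_alpha N p
  have hcomm : ∀ a : FF N, ((frob q h₁ : FF (N * p) →ₐ[Kbar] FF P) : FF (N * p) →+* FF P)
      (algebraMap (FF N) (FF (N * p)) a)
      = algebraMap (FF (N * q)) (FF P)
        (((heckeBetaBar Kbar N q : FF N →ₐ[Kbar] FF (N * q)) : FF N →+* FF (N * q)) a) :=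
    fun a => congrArg (fun f : FF N →ₐ[Kbar] FF P => f a) (square_comm h₁ h₂)
  exact Fermat.Agent.S29.H73.norm_baseChange
    ((heckeBetaBar Kbar N q : FF N →ₐ[Kbar] FF (N * q)) : FF N →+* FF (N * q))
    ((frob q h₁ : FF (N * p) →ₐ[Kbar] FF P) : FF (N * p) →+* FF P) hcomm
    (finrankAlong_square hp hq hpq hP h₂).symm (span_frob_eq_top hgen hP h₁ h₂) h

end Square

end Fermat.Agent.S29.H51
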