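/-
S29 / Program A (helper51), leaf HCOMM, part 3: the Hecke operators `T_p`, `T_q` on `J₀(N)`
commute, GIVEN the generation statement `Gen` of `ModularSquare.lean` at every level.

* `heckeDiv_heckeDiv` : on divisors, for distinct primes `p ≠ q` and `P = N p q`,
  `T_q (T_p D) = Φ_* (Ψ^* D)` for ANY `Φ, Ψ : FF N → FF P` with `Φ x = x` and
  `Ψ x = x(q^{pq})` as Laurent series (base change on the modular square + functoriality);
* `heckeDivBar_comm` : `T_q T_p = T_p T_q` on divisors;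
* `heckeOperatorsCommuteBar_of_gen` : `ModularCurve.HeckeOperatorsCommuteBar N`.
-/
import Fermat.Agent.S29.H51.ModularSquare
import Fermat.Prelude.Def_ModularCurve_HeckeModule

set_option autoImplicit false
set_option linter.unusedSectionVars false
set_option linter.style.haveILetI false

open AlgebraicCurve IntermediateField ModularCurve Fermat.Agent.S24

noncomputable section

namespace Fermat.Agent.S29.H51

section Assembly

variable {N p q P : ℕ} [NeZero N] [NeZero p] [NeZero q] [NeZero P]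

/-- `T_q (T_p D) = Φ_* (Ψ^* D)` on divisors of `FF N`, through the level `P = N p q`. -/
theorem heckeDiv_heckeDiv (hgen : Gen P) (hp : p.Prime) (hq : q.Prime) (hpq : p ≠ q)
    (hP : P = N * p * q)
    [HasPrincipalDivisors Kbar (FF (N * p))] [HasPrincipalDivisors Kbar (FF (N * q))]
    [HasPrincipalDivisors Kbar (FF P)]
    (hαp : HeckeAlphaBarIntegral Kbar N p) (hβp : HeckeBetaBarIntegral Kbar N p)
    (hαq : HeckeAlphaBarIntegral Kbar N q) (hβq : HeckeBetaBarIntegral Kbar N q)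
    (Φ Ψ : FF N →ₐ[Kbar] FF P) (hΦ : Φ.toRingHom.IsIntegral) (hΨ : Ψ.toRingHom.IsIntegral)
    (hΦc : ∀ x : FF N, ((Φ x : FF P) : LaurentSeries Kbar) = (x : LaurentSeries Kbar))
    (hΨc : ∀ x : FF N, ((Ψ x : FF P) : LaurentSeries Kbar)
      = qExpand Kbar q (qExpand Kbar p (x : LaurentSeries Kbar)))
    (D : Divisor Kbar (FF N)) :
    heckeDivBar hαq hβq (heckeDivBar hαp hβp D)
      = Divisor.pushforwardAlong Φ hΦ (Divisor.pullbackAlong Ψ hΨ D) := by
  have h₁ : N * p * q ∣ P := hP ▸ dvd_refl _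
  have h₂ : N * q ∣ P := by rw [hP]; exact ⟨p, by ring⟩
  haveI := Fermat.Agent.S37.H13.finiteDimensional_jgen N
  haveI := Fermat.Agent.S37.H13.finiteDimensional_jgen (N * p)
  haveI := Fermat.Agent.S37.H13.finiteDimensional_jgen (N * q)
  -- the two composites
  have eΦ : Φ = (incl h₂).comp (heckeAlphaBar Kbar N q) :=
    AlgHom.ext fun x => Subtype.ext (by
      rw [hΦc, AlgHom.comp_apply, coe_incl, coe_heckeAlphaBar])
  have eΨ : Ψ = (frob q h₁).comp (heckeBetaBar Kbar N p) :=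
    AlgHom.ext fun x => Subtype.ext (by
      rw [hΨc, AlgHom.comp_apply, coe_frob, coe_heckeBetaBar])
  subst eΦ eΨ
  -- base change on the square
  have hBC := pullbackAlong_pushforwardAlong (K := Kbar)
    (jgen N) (Fermat.Agent.S18.H60.transcendental_jgen N)
    (jgen (N * p)) (Fermat.Agent.S18.H60.transcendental_jgen (N * p))
    (jgen (N * q)) (Fermat.Agent.S18.H60.transcendental_jgen (N * q))
    (heckeAlphaBar Kbar N p) (heckeBetaBar Kbar N q) (frob q h₁) (incl h₂)
    hαp hβq (isIntegral_frob q h₁) (isIntegral_incl h₂)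
    (Fermat.Agent.S37.H87.finiteAlong_alpha N p) (finiteAlong_incl h₂)
    (square_comm h₁ h₂) (normAlong_square hgen hp hq hpq hP h₁ h₂)
  -- finiteness of the composite inclusion
  have hfin : FiniteAlong Kbar ((incl h₂).comp (heckeAlphaBar Kbar N q)) := by
    have e : (incl h₂).comp (heckeAlphaBar Kbar N q) = incl (Dvd.dvd.trans (dvd_mul_right N q) h₂) :=
      AlgHom.ext fun x => Subtype.ext (by
        rw [AlgHom.comp_apply, coe_incl, coe_heckeAlphaBar, coe_incl])
    rw [e]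
    exact finiteAlong_incl _
  show Divisor.pushforwardAlong (heckeAlphaBar Kbar N q) hαq
      (Divisor.pullbackAlong (heckeBetaBar Kbar N q) hβq
        (Divisor.pushforwardAlong (heckeAlphaBar Kbar N p) hαp
          (Divisor.pullbackAlong (heckeBetaBar Kbar N p) hβp D))) = _
  rw [hBC, pullbackAlong_comp (heckeBetaBar Kbar N p) (frob q h₁) hβp (isIntegral_frob q h₁) hΨ,
    pushforwardAlong_comp (heckeAlphaBar Kbar N q) (incl h₂) hαq (isIntegral_incl h₂) hΦ
      (inertiaDegAlong_eq_one (jgen N) _ hΦ hfin)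
      (inertiaDegAlong_eq_one (jgen (N * q)) _ (isIntegral_incl h₂) (finiteAlong_incl h₂))
      (inertiaDegAlong_eq_one (jgen N) _ hαq (Fermat.Agent.S37.H87.finiteAlong_alpha N q))]

end Assembly

section Comm

variable {N p q : ℕ} [NeZero N] [NeZero p] [NeZero q]

/-- `T_q T_p = T_p T_q` on divisors of `FF N`, for distinct primes. -/
theorem heckeDivBar_comm (hgen : Gen (N * p * q)) (hp : p.Prime) (hq : q.Prime) (hpq : p ≠ q)
    [HasPrincipalDivisors Kbar (FF (N * p))] [HasPrincipalDivisors Kbar (FF (N * q))]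
    [HasPrincipalDivisors Kbar (FF (N * p * q))]
    (hαp : HeckeAlphaBarIntegral Kbar N p) (hβp : HeckeBetaBarIntegral Kbar N p)
    (hαq : HeckeAlphaBarIntegral Kbar N q) (hβq : HeckeBetaBarIntegral Kbar N q)
    (D : Divisor Kbar (FF N)) :
    heckeDivBar hαq hβq (heckeDivBar hαp hβp D) = heckeDivBar hαp hβp (heckeDivBar hαq hβq D) := by
  have hd₁ : N ∣ N * p * q := ⟨p * q, by ring⟩
  have hd₂ : N * (p * q) ∣ N * p * q := ⟨1, by ring⟩
  have hΦc : ∀ x : FF N, ((incl hd₁ x : FF (N * p * q)) : LaurentSeries Kbar)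
      = (x : LaurentSeries Kbar) := fun x => coe_incl hd₁ x
  have hΨc₁ : ∀ x : FF N, ((frob (p * q) hd₂ x : FF (N * p * q)) : LaurentSeries Kbar)
      = qExpand Kbar q (qExpand Kbar p (x : LaurentSeries Kbar)) := by
    intro x
    rw [coe_frob, qExpand_qExpand]
    exact qExpand_congr (mul_comm p q) _
  have hΨc₂ : ∀ x : FF N, ((frob (p * q) hd₂ x : FF (N * p * q)) : LaurentSeries Kbar)
      = qExpand Kbar p (qExpand Kbar q (x : LaurentSeries Kbar)) := by
    intro x
    rw [coe_frob, qExpand_qExpand]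
  rw [heckeDiv_heckeDiv hgen hp hq hpq rfl hαp hβp hαq hβq (incl hd₁) (frob (p * q) hd₂)
      (isIntegral_incl hd₁) (isIntegral_frob (p * q) hd₂) hΦc hΨc₁ D,
    heckeDiv_heckeDiv hgen hq hp hpq.symm (Nat.mul_right_comm N p q) hαq hβq hαp hβp
      (incl hd₁) (frob (p * q) hd₂) (isIntegral_incl hd₁) (isIntegral_frob (p * q) hd₂)
      hΦc hΨc₂ D]

end Comm

section Pic0

variable (N : ℕ) [NeZero N]

/-- **Hecke operators commute on `J₀(N)`**, given the generation statement at every level. -/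
theorem heckeOperatorsCommuteBar_of_gen (hgen : ∀ (P : ℕ) [NeZero P], Gen P) :
    HeckeOperatorsCommuteBar N := by
  intro ℓ ℓ'
  by_cases hℓ : ℓ = ℓ'
  · rw [hℓ]
  haveI : NeZero (ℓ : ℕ) := ⟨ℓ.2.ne_zero⟩
  haveI : NeZero (ℓ' : ℕ) := ⟨ℓ'.2.ne_zero⟩
  have hne : (ℓ : ℕ) ≠ (ℓ' : ℕ) := fun h => hℓ (Subtype.ext h)
  haveI := Fermat.Agent.S18.H13.hasPrincipalDivisors_FF (N * (ℓ : ℕ))
  haveI := Fermat.Agent.S18.H13.hasPrincipalDivisors_FF (N * (ℓ' : ℕ))
  haveI := Fermat.Agent.S18.H13.hasPrincipalDivisors_FF (N * (ℓ : ℕ) * (ℓ' : ℕ))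
  haveI := Fermat.Agent.S18.H13.hasPrincipalDivisors_FF (N * (ℓ' : ℕ) * (ℓ : ℕ))
  apply LinearMap.ext
  intro x
  show heckeOperatorBar N ℓ (heckeOperatorBar N ℓ' x)
    = heckeOperatorBar N ℓ' (heckeOperatorBar N ℓ x)
  rw [heckeOperatorBar_apply, heckeOperatorBar_apply, heckeOperatorBar_apply,
    heckeOperatorBar_apply]
  rw [Fermat.Agent.S37.H13.heckeOperatorAlong_eq_heckePic0Bar N (ℓ : ℕ),
    Fermat.Agent.S37.H13.heckeOperatorAlong_eq_heckePic0Bar N (ℓ' : ℕ)]
  obtain ⟨D, rfl⟩ := Pic0.mk_surjective x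
  refine congrArg Pic0.mk (Subtype.ext ?_)
  exact heckeDivBar_comm (hgen _) ℓ'.2 ℓ.2 (Ne.symm hne)
    (Fermat.Agent.S37.H87.heckeAlphaBarIntegral N (ℓ' : ℕ))
    (Fermat.Agent.S37.H87.heckeBetaBarIntegral N (ℓ' : ℕ))
    (Fermat.Agent.S37.H87.heckeAlphaBarIntegral N (ℓ : ℕ))
    (Fermat.Agent.S37.H87.heckeBetaBarIntegral N (ℓ : ℕ)) (D : Divisor Kbar (FF N))

end Pic0

end Fermat.Agent.S29.H51
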