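/-
S29 / Program A (helper51 + helper30 + helper73), leaf HCOMM, final file:

    `heckeOperatorsCommuteBar N : ModularCurve.HeckeOperatorsCommuteBar N`    (every `N ≥ 1`)

i.e. `T_ℓ T_ℓ' = T_ℓ' T_ℓ` on `J₀(N)` for ALL primes `ℓ, ℓ'` — the first hypothesis of the frozen
S37, unconditionally.  Assembly of `HeckeComm.heckeOperatorsCommuteBar_of_gen` (helper51: base
change on the modular square) with the generation leaf `S29/H30/Generation.lean` (helper30:
`FF P = ℚ̄(j, j(q^P))`).
-/
import Fermat.Agent.S29.H51.HeckeComm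
import Fermat.Agent.S29.H30.Generation

set_option autoImplicit false

open ModularCurve

namespace Fermat.Agent.S29.H51

/-- The generation statement holds at every level (helper30). -/
theorem gen (P : ℕ) [NeZero P] : Gen P :=
  fun E h1 h2 => Fermat.Agent.S29.H30.eq_top_of_jgen_mem_of_jtop_mem P E h1 h2

/-- **The Hecke operators on `J₀(N)` commute**: `T_ℓ T_ℓ' = T_ℓ' T_ℓ` for all primes. -/
theorem heckeOperatorsCommuteBar (N : ℕ) [NeZero N] : HeckeOperatorsCommuteBar N :=
  heckeOperatorsCommuteBar_of_gen N fun P _ => gen P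

end Fermat.Agent.S29.H51
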